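import Mathlib

set_option autoImplicit false

/-!
# Ring homomorphisms of an integral operator algebra give eigenvectors

`T` is a commutative `ℤ`-algebra of endomorphisms of a complex vector space `V`, finite over `ℤ`,
admitting a separating family of linear functionals on `End V` which are integral on `T`.
Then every ring homomorphism `T →+* ℂ` is the system of eigenvalues of some nonzero vector.
-/

open scoped TensorProduct

namespace FermatAgent.DSLift

/-- Integer families which are independent over `ℤ` stay independent over `ℂ`. -/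
theorem eq_zero_of_sum_intCast_mul_eq_zero {ι κ : Type*} [Fintype ι] (M : ι → κ → ℤ)
    (hM : ∀ d : ι → ℤ, (∀ k, ∑ i, d i * M i k = 0) → d = 0) (c : ι → ℂ)
    (hc : ∀ k, ∑ i, c i * (M i k : ℂ) = 0) : c = 0 := by
  classical
  let bas := Module.Basis.ofVectorSpace ℚ ℂ
  funext i₀
  refine bas.repr.injective ?_
  rw [Pi.zero_apply, map_zero]
  ext j
  let q : ι → ℚ := fun i => bas.coord j (c i)
  have hq : ∀ k, ∑ i, q i * (M i k : ℚ) = 0 := fun k => by
    have h := congrArg (bas.coord j) (hc k)
    rw [map_sum, map_zero] at h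
    rw [← h]
    refine Finset.sum_congr rfl fun i _ => ?_
    rw [show c i * (M i k : ℂ) = ((M i k : ℚ)) • c i by rw [Rat.smul_def, mul_comm]; push_cast; ring,
      map_smul, smul_eq_mul, mul_comm]
  obtain ⟨b, hb⟩ := IsLocalization.exist_integer_multiples_of_finite (nonZeroDivisors ℤ) q
  choose d hd using hb
  have hd' : ∀ i, (d i : ℚ) = (b : ℤ) * q i := fun i => by
    have := hd i
    simp only [eq_intCast, zsmul_eq_mul] at this
    exact this
  have hd0 : d = 0 := hM d fun k => by
    have : ((∑ i, d i * M i k : ℤ) : ℚ) = 0 := by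
      push_cast
      rw [Finset.sum_congr rfl (fun i _ => by rw [hd' i, mul_assoc]), ← Finset.mul_sum, hq, mul_zero]
    exact_mod_cast this
  have hb0 : ((b : ℤ) : ℚ) ≠ 0 := by exact_mod_cast nonZeroDivisors.coe_ne_zero b
  have := hd' i₀
  rw [hd0] at this
  simpa [q, hb0] using this.symm

/-- Every ring hom from an integral, finite, commutative operator algebra to `ℂ` has an
eigenvector. -/
theorem exists_eigenvector_of_integral_operators {V : Type*} [AddCommGroup V] [Module ℂ V]
    {T : Type*} [CommRing T] [Module.Finite ℤ T] [Module.Free ℤ T]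
    (act : T →+* Module.End ℂ V) (hinj : Function.Injective act)
    {κ : Type*} (φ : κ → (Module.End ℂ V →ₗ[ℂ] ℂ))
    (hint : ∀ t k, ∃ m : ℤ, φ k (act t) = m)
    (hsep : ∀ E : Module.End ℂ V, (∀ k, φ k E = 0) → E = 0)
    (χ : T →+* ℂ) :
    ∃ v : V, v ≠ 0 ∧ ∀ t, act t v = χ t • v := by
  classical
  let bT := Module.Free.chooseBasis ℤ T
  let actA : T →ₐ[ℤ] Module.End ℂ V := act.toIntAlgHom
  let Φ : ℂ ⊗[ℤ] T →ₐ[ℂ] Module.End ℂ V :=
    Algebra.TensorProduct.lift (Algebra.ofId ℂ _) actA
      fun c t => Algebra.commutes c (act t)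
  let ψ : ℂ ⊗[ℤ] T →ₐ[ℂ] ℂ :=
    Algebra.TensorProduct.lift (Algebra.ofId ℂ _) χ.toIntAlgHom
      fun c t => Commute.all c (χ t)
  have hΦ : ∀ (c : ℂ) (t : T), Φ (c ⊗ₜ t) = c • act t := fun c t => by
    simp [Φ, actA, Algebra.ofId_apply, ← Algebra.smul_def]
  choose M hM using fun i k => hint (bT i) k
  have hΦinj : ∀ x, Φ x = 0 → x = 0 := by
    intro x hx
    let bB := Algebra.TensorProduct.basis ℂ bT
    have hx' := bB.sum_repr x
    have hc : (fun i => bB.repr x i) = 0 := by
      refine eq_zero_of_sum_intCast_mul_eq_zero M (fun d hd => ?_) _ fun k => ?_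
      · have hact : act (∑ i, d i • bT i) = 0 := hsep _ fun k => by
          have := congrArg (Int.cast : ℤ → ℂ) (hd k)
          push_cast at this
          rw [map_sum, map_sum]
          refine Eq.trans (Finset.sum_congr rfl fun i _ => ?_) this
          rw [map_zsmul act, map_zsmul (φ k), hM, zsmul_eq_mul]
        have h0 : ∑ i, d i • bT i = 0 := hinj (by rw [hact, map_zero])
        funext i
        exact Fintype.linearIndependent_iff.mp bT.linearIndependent d h0 i
      · have h := congrArg (fun y => φ k (Φ y)) hx'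
        simpa [bB, hx, map_sum, map_smul, hΦ, hM, Algebra.TensorProduct.basis_apply] using h
    exact bB.ext_elem fun i => by simpa using congrFun hc i
  have : IsArtinianRing (ℂ ⊗[ℤ] T) := IsArtinianRing.of_finite ℂ _
  have hprime : (RingHom.ker ψ).IsPrime := RingHom.ker_isPrime _
  have hmin : RingHom.ker ψ ∈ (Module.annihilator (ℂ ⊗[ℤ] T) (ℂ ⊗[ℤ] T)).minimalPrimes := by
    rw [Module.annihilator_eq_bot.mpr inferInstance]
    exact IsArtinianRing.mem_minimalPrimes bot_le
  obtain ⟨-, x, hx⟩ := isAssociatedPrime_iff.mp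
    (Module.associatedPrimes.minimalPrimes_annihilator_subset_associatedPrimes _ _ hmin)
  have hx0 : x ≠ 0 := by
    rintro rfl
    refine hprime.ne_top ?_
    rw [hx]
    ext r
    simp [Submodule.mem_colon_singleton]
  obtain ⟨w, hw⟩ : ∃ w, Φ x w ≠ 0 := by
    by_contra h
    push Not at h
    exact hx0 (hΦinj x (LinearMap.ext h))
  refine ⟨Φ x w, hw, fun t => ?_⟩
  have hmem : (1 : ℂ) ⊗ₜ[ℤ] t - (χ t) ⊗ₜ[ℤ] (1 : T) ∈ RingHom.ker ψ := by
    simp [RingHom.mem_ker, ψ]
  rw [hx, Submodule.mem_colon_singleton, Submodule.mem_bot, smul_eq_mul, sub_mul, sub_eq_zero]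
    at hmem
  have h := congrArg (fun y => Φ y w) hmem
  simp only [map_mul, hΦ, map_one, Module.End.mul_apply] at h
  simpa using h

end FermatAgent.DSLift
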