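import Mathlib
import Fermat.Prelude.Def_CuspForm_HeckeAlgebra
import Fermat.Prelude.Def_CuspForm_IntegralStructure
import Fermat.Prelude.Thm_CuspForm_intLattice_fg
import Fermat.Prelude.Thm_CuspForm_mem_intLattice_of_mem_heckeAlgebra
import Fermat.Prelude.Thm_ModularFormClass_qCoeff_heckeT
import Fermat.Prelude.Thm_ModularFormClass_qCoeff_heckeU
import Fermat.Prelude.Thm_CongruenceSubgroup_one_mem_strictPeriods_Gamma0
import Fermat.Agent.DSLift.Eigenvector

set_option autoImplicit false

/-!
# `q`-coefficients on cusp forms as linear functionals, and the integral lattice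
-/

noncomputable section

open ModularFormClass CongruenceSubgroup

namespace FermatAgent.DSLift

variable {N : ℕ} {k : ℤ}

theorem qCoeff_add' (f g : CuspForm (Gamma0 N) k) (n : ℕ) :
    qCoeff ⇑(f + g) n = qCoeff ⇑f n + qCoeff ⇑g n := by
  simp only [qCoeff, FunLike.coe_add,
    ModularForm.qExpansion_add one_pos (one_mem_strictPeriods_Gamma0 N) f g, map_add]

theorem qCoeff_smul' (c : ℂ) (f : CuspForm (Gamma0 N) k) (n : ℕ) :
    qCoeff ⇑(c • f) n = c * qCoeff ⇑f n := by
  simp only [qCoeff, FunLike.coe_smul,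
    ModularForm.qExpansion_smul one_pos (one_mem_strictPeriods_Gamma0 N) c f,
    PowerSeries.coeff_smul, smul_eq_mul]

/-- The `n`-th `q`-coefficient as a linear functional on cusp forms for `Γ₀(N)`. -/
def qCoeffLin (N : ℕ) (k : ℤ) (n : ℕ) : CuspForm (Gamma0 N) k →ₗ[ℂ] ℂ where
  toFun f := qCoeff ⇑f n
  map_add' f g := qCoeff_add' f g n
  map_smul' c f := qCoeff_smul' c f n

@[simp] theorem qCoeffLin_apply (f : CuspForm (Gamma0 N) k) (n : ℕ) :
    qCoeffLin N k n f = qCoeff ⇑f n := rfl

theorem qCoeff_zero_index (f : CuspForm (Gamma0 N) k) : qCoeff ⇑f 0 = 0 :=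
  CuspFormClass.qExpansion_coeff_zero f one_pos (one_mem_strictPeriods_Gamma0 N)

theorem eq_zero_of_qCoeff_eq_zero [NeZero N] {f : CuspForm (Gamma0 N) k}
    (h : ∀ n, qCoeff ⇑f n = 0) : f = 0 := by
  refine DFunLike.coe_injective ?_
  rw [FunLike.coe_zero]
  refine (UpperHalfPlane.qExpansion_eq_zero_iff one_pos
    (SlashInvariantFormClass.periodic_comp_ofComplex f (one_mem_strictPeriods_Gamma0 N))
    (CuspFormClass.holo f) ?_).mp (PowerSeries.ext fun n => by simpa [qCoeff] using h n)
  exact ModularFormClass.bdd_at_infty f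

theorem qCoeff_heckeTLin {p : ℕ} (hp : p.Prime) (hpN : ¬ p ∣ N) (f : CuspForm (Gamma0 N) k)
    (n : ℕ) :
    qCoeff ⇑(CuspForm.heckeTLin k hp hpN f) n =
      qCoeff ⇑f (n * p) + if p ∣ n then (p : ℂ) ^ (k - 1) * qCoeff ⇑f (n / p) else 0 := by
  rw [CuspForm.coe_heckeTLin_apply,
    ModularFormClass.qCoeff_heckeT f (one_mem_strictPeriods_Gamma0 N) hp.ne_zero n]
  rfl

theorem qCoeff_heckeULin [NeZero N] {p : ℕ} (hp : p ≠ 0) (hpN : p ∣ N)
    (f : CuspForm (Gamma0 N) k) (n : ℕ) :
    qCoeff ⇑(CuspForm.heckeULin k hpN f) n = qCoeff ⇑f (n * p) := by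
  rw [CuspForm.coe_heckeULin_apply,
    ModularFormClass.qCoeff_heckeU f (one_mem_strictPeriods_Gamma0 N) hp n]
  rfl

/-- The integral lattice consists exactly of the forms with integral `q`-coefficients. -/
theorem mem_intLattice_iff {f : CuspForm (Gamma0 N) k} :
    f ∈ CuspForm.intLattice N k ↔ ∀ n, ∃ m : ℤ, qCoeff ⇑f n = m := by
  refine ⟨fun hf n => ?_, fun h => Submodule.subset_span h⟩
  induction hf using Submodule.span_induction with
  | mem x hx => exact hx n
  | zero => exact ⟨0, by rw [← qCoeffLin_apply, map_zero, Int.cast_zero]⟩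
  | add x y _ _ hx hy =>
    obtain ⟨a, ha⟩ := hx
    obtain ⟨b, hb⟩ := hy
    exact ⟨a + b, by rw [qCoeff_add', ha, hb, Int.cast_add]⟩
  | smul c x _ hx =>
    obtain ⟨a, ha⟩ := hx
    exact ⟨c * a, by
      rw [← qCoeffLin_apply, map_zsmul, qCoeffLin_apply, ha, zsmul_eq_mul, Int.cast_mul]⟩

theorem end_eq_zero_of_intLattice (h : CuspForm.HasIntegralStructure N k)
    (E : Module.End ℂ (CuspForm (Gamma0 N) k)) (hE : ∀ l ∈ CuspForm.intLattice N k, E l = 0) :
    E = 0 :=
  LinearMap.ext_on h fun l hl => by simpa using hE l hl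

theorem finiteDimensional_cuspForm [NeZero N] (h : CuspForm.HasIntegralStructure N k) :
    FiniteDimensional ℂ (CuspForm (Gamma0 N) k) := by
  classical
  obtain ⟨s, hs⟩ := CuspForm.intLattice_fg N k
  refine ⟨s, top_le_iff.mp ?_⟩
  rw [← h, ← hs]
  exact Submodule.span_le.mpr (Submodule.span_le_restrictScalars ℤ ℂ _)

/-- With an integral structure, the Hecke algebra acts faithfully on the integral lattice, so it
is finite over `ℤ`. -/
theorem heckeAlgebra_finite [NeZero N] (hk : 1 ≤ k) (h : CuspForm.HasIntegralStructure N k)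
    (S : Set ℕ) : Module.Finite ℤ (CuspForm.heckeAlgebra N k S) := by
  have : Module.Finite ℤ (CuspForm.intLattice N k) := .of_fg (CuspForm.intLattice_fg N k)
  have : IsAddTorsionFree (CuspForm.intLattice N k) :=
    ⟨fun n hn a b hab => Subtype.ext <| by
      have h' : (n : ℂ) • a.1 = (n : ℂ) • b.1 := by
        rw [Nat.cast_smul_eq_nsmul, Nat.cast_smul_eq_nsmul]
        exact congrArg Subtype.val hab
      exact smul_right_injective _ (Nat.cast_ne_zero.mpr hn) h'⟩
  have : Module.Free ℤ (CuspForm.intLattice N k) := Module.free_of_finite_type_torsion_free'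
  let r : CuspForm.heckeAlgebra N k S →+ Module.End ℤ (CuspForm.intLattice N k) :=
    AddMonoidHom.mk' (fun t =>
      (AddMonoidHom.mk' (fun l => (⟨t.1 l.1,
        CuspForm.mem_intLattice_of_mem_heckeAlgebra hk t.2 l.2⟩ : CuspForm.intLattice N k))
        fun l l' => Subtype.ext (map_add t.1 l.1 l'.1)).toIntLinearMap)
      fun t t' => LinearMap.ext fun l => Subtype.ext rfl
  refine Module.Finite.of_injective r.toIntLinearMap fun t t' htt' => Subtype.ext ?_
  rw [← sub_eq_zero]
  refine end_eq_zero_of_intLattice h _ fun l hl => ?_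
  have := congrArg Subtype.val (LinearMap.congr_fun htt' ⟨l, hl⟩)
  exact sub_eq_zero.mpr this

/-- Every ring homomorphism from the Hecke algebra to `ℂ` is the eigenvalue system of a nonzero
cusp form (given an integral structure). -/
theorem exists_eigenform_of_ringHom [NeZero N] (hk : 1 ≤ k)
    (h : CuspForm.HasIntegralStructure N k) {S : Set ℕ}
    (χ : CuspForm.heckeAlgebra N k S →+* ℂ) :
    ∃ g : CuspForm (Gamma0 N) k, g ≠ 0 ∧
      ∀ t : CuspForm.heckeAlgebra N k S, t.1 g = χ t • g := by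
  have := heckeAlgebra_finite hk h S
  have : Module.Free ℤ (CuspForm.heckeAlgebra N k S) := Module.free_of_finite_type_torsion_free'
  refine exists_eigenvector_of_integral_operators
    (CuspForm.heckeAlgebra N k S).val.toRingHom Subtype.val_injective
    (κ := CuspForm.intLattice N k × ℕ)
    (fun q => (qCoeffLin N k q.2).comp (LinearMap.applyₗ q.1.1)) ?_ ?_ χ
  · rintro t ⟨l, n⟩
    exact mem_intLattice_iff.mp (CuspForm.mem_intLattice_of_mem_heckeAlgebra hk t.2 l.2) n
  · intro E hE
    exact end_eq_zero_of_intLattice h E fun l hl =>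
      eq_zero_of_qCoeff_eq_zero fun n => hE (⟨l, hl⟩, n)

end FermatAgent.DSLift
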