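import Fermat.Agent.DSLift.QExp
import Fermat.Prelude.Def_FLTPrelim_Modularity

set_option autoImplicit false

/-!
# Normalized eigenforms of weight two versus characters of the Hecke algebra
-/

noncomputable section

open ModularFormClass CongruenceSubgroup

namespace FermatAgent.DSLift

variable {N : ℕ} [NeZero N]

/-- A family `lam` of eigenvalues for all weight two Hecke operators at `g`. -/
def IsPrimeEigen (g : CuspForm (Gamma0 N) 2) (lam : ℕ → ℂ) : Prop :=
  (∀ p : ℕ, ∀ (hp : p.Prime) (hpN : ¬ p ∣ N), CuspForm.heckeTLin 2 hp hpN g = lam p • g) ∧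
    ∀ p : ℕ, p.Prime → ∀ hpN : p ∣ N, CuspForm.heckeULin 2 hpN g = lam p • g

theorem IsPrimeEigen.qCoeff_mul_prime {g : CuspForm (Gamma0 N) 2} {lam : ℕ → ℂ}
    (h : IsPrimeEigen g lam) {p : ℕ} (hp : p.Prime) (n : ℕ) :
    qCoeff ⇑g (n * p) = lam p * qCoeff ⇑g n -
      if p ∣ n ∧ ¬ p ∣ N then (p : ℂ) * qCoeff ⇑g (n / p) else 0 := by
  by_cases hpN : p ∣ N
  · have := congrArg (fun f : CuspForm (Gamma0 N) 2 => qCoeff ⇑f n) (h.2 p hp hpN)
    simp only [qCoeff_heckeULin hp.ne_zero hpN, qCoeff_smul'] at this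
    simpa [hpN] using this
  · have := congrArg (fun f : CuspForm (Gamma0 N) 2 => qCoeff ⇑f n) (h.1 p hp hpN)
    simp only [qCoeff_heckeTLin hp hpN, qCoeff_smul'] at this
    norm_num at this
    simp only [hpN, not_false_eq_true, and_true]
    linear_combination this

theorem IsPrimeEigen.qCoeff_mul_coprime {g : CuspForm (Gamma0 N) 2} {lam : ℕ → ℂ}
    (h : IsPrimeEigen g lam) : ∀ m n : ℕ, m.Coprime n →
    qCoeff ⇑g (m * n) * qCoeff ⇑g 1 = qCoeff ⇑g m * qCoeff ⇑g n := by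
  intro m
  induction m using Nat.strong_induction_on with
  | _ m ih =>
  intro n hmn
  rcases eq_or_ne m 1 with rfl | hm1
  · rw [one_mul, mul_comm]
  rcases eq_or_ne m 0 with rfl | hm0
  · obtain rfl : n = 1 := by simpa using hmn
    simp
  obtain ⟨p, hp, hpm⟩ := Nat.exists_prime_and_dvd hm1
  obtain ⟨m', rfl⟩ := hpm
  have hm' : m' ≠ 0 := fun h0 => hm0 (by simp [h0])
  have hlt : m' < p * m' := lt_mul_of_one_lt_left (Nat.pos_of_ne_zero hm') hp.one_lt
  have hcop : m'.Coprime n := Nat.Coprime.coprime_dvd_left (dvd_mul_left m' p) hmn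
  have hpn : ¬ p ∣ n := (Nat.Prime.coprime_iff_not_dvd hp).mp
    (Nat.Coprime.coprime_dvd_left (dvd_mul_right p m') hmn)
  rw [show p * m' * n = (m' * n) * p by ring, mul_comm p m', h.qCoeff_mul_prime hp,
    h.qCoeff_mul_prime hp]
  by_cases hdiv : p ∣ m' ∧ ¬ p ∣ N
  · obtain ⟨hpm', hpN⟩ := hdiv
    rw [if_pos ⟨Dvd.dvd.mul_right hpm' n, hpN⟩, if_pos ⟨hpm', hpN⟩,
      Nat.mul_div_right_comm hpm']
    have h1 := ih m' hlt n hcop
    have h2 := ih (m' / p)
      (lt_of_le_of_lt (Nat.div_le_self m' p) hlt) n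
      (Nat.Coprime.coprime_dvd_left (Nat.div_dvd_of_dvd hpm') hcop)
    linear_combination lam p * h1 - (p : ℂ) * h2
  · rw [if_neg hdiv, if_neg fun hh => hdiv ⟨(hp.dvd_mul.mp hh.1).resolve_right hpn, hh.2⟩]
    linear_combination lam p * ih m' hlt n hcop

theorem IsPrimeEigen.qCoeff_one_ne_zero {g : CuspForm (Gamma0 N) 2} {lam : ℕ → ℂ}
    (h : IsPrimeEigen g lam) (hg : g ≠ 0) : qCoeff ⇑g 1 ≠ 0 := by
  intro h1
  refine hg (eq_zero_of_qCoeff_eq_zero fun n => ?_)
  induction n using Nat.strong_induction_on with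
  | _ n ih =>
  rcases eq_or_ne n 1 with rfl | hn1
  · exact h1
  rcases eq_or_ne n 0 with rfl | hn0
  · exact qCoeff_zero_index g
  obtain ⟨p, hp, m, rfl⟩ := Nat.exists_prime_and_dvd hn1
  have hm : m ≠ 0 := fun h0 => hn0 (by simp [h0])
  have hlt : m < p * m := lt_mul_of_one_lt_left (Nat.pos_of_ne_zero hm) hp.one_lt
  rw [mul_comm, h.qCoeff_mul_prime hp, ih m hlt,
    ih (m / p) (lt_of_le_of_lt (Nat.div_le_self m p) hlt)]
  simp

/-- An eigenvector of all weight two Hecke operators rescales to a normalized eigenform. -/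
theorem IsPrimeEigen.exists_normalized {g : CuspForm (Gamma0 N) 2} {lam : ℕ → ℂ}
    (h : IsPrimeEigen g lam) (hg : g ≠ 0) :
    ∃ f : CuspForm (Gamma0 N) 2, f.IsNormalizedEigenform ∧
      (∀ p : ℕ, p.Prime → qCoeff ⇑f p = lam p) ∧ IsPrimeEigen f lam := by
  have hg1 := h.qCoeff_one_ne_zero hg
  let f := (qCoeff ⇑g 1)⁻¹ • g
  have hf : IsPrimeEigen f lam :=
    ⟨fun p hp hpN => by rw [map_smul, h.1 p hp hpN, smul_comm],
      fun p hp hpN => by rw [map_smul, h.2 p hp hpN, smul_comm]⟩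
  have hf1 : qCoeff ⇑f 1 = 1 := by rw [qCoeff_smul', inv_mul_cancel₀ hg1]
  have hfp : ∀ p : ℕ, p.Prime → qCoeff ⇑f p = lam p := fun p hp => by
    have := hf.qCoeff_mul_prime hp 1
    simpa [hf1, hp.ne_one] using this
  refine ⟨f, ⟨hf1, fun m n hmn => ?_, fun p r hp hpN => ?_, fun p r hp hpN => ?_⟩, hfp, hf⟩
  · simpa [hf1] using hf.qCoeff_mul_coprime m n hmn
  · rw [hfp p hp, pow_succ p (r + 1), hf.qCoeff_mul_prime hp,
      if_pos ⟨dvd_pow_self p (Nat.succ_ne_zero r), hpN⟩, pow_succ p r,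
      Nat.mul_div_cancel _ hp.pos]
  · rw [hfp p hp, pow_succ p (r + 1), hf.qCoeff_mul_prime hp,
      if_neg fun hh => hh.2 hpN, sub_zero]

/-- The eigenvalue attached to a prime by a character of the full weight two Hecke algebra. -/
def eigenvalueOfHom (χ : CuspForm.heckeAlgebra N 2 ∅ →+* ℂ) (p : ℕ) : ℂ :=
  if hp : p.Prime then
    if hpN : p ∣ N then χ (CuspForm.heckeAlgebra.U hp hpN (Set.notMem_empty p))
    else χ (CuspForm.heckeAlgebra.T hp hpN (Set.notMem_empty p))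
  else 0

theorem eigenvalueOfHom_T (χ : CuspForm.heckeAlgebra N 2 ∅ →+* ℂ) {p : ℕ} (hp : p.Prime)
    (hpN : ¬ p ∣ N) :
    eigenvalueOfHom χ p = χ (CuspForm.heckeAlgebra.T hp hpN (Set.notMem_empty p)) := by
  rw [eigenvalueOfHom, dif_pos hp, dif_neg hpN]

theorem eigenvalueOfHom_U (χ : CuspForm.heckeAlgebra N 2 ∅ →+* ℂ) {p : ℕ} (hp : p.Prime)
    (hpN : p ∣ N) :
    eigenvalueOfHom χ p = χ (CuspForm.heckeAlgebra.U hp hpN (Set.notMem_empty p)) := by
  rw [eigenvalueOfHom, dif_pos hp, dif_pos hpN]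

/-- A ring hom from the weight two Hecke algebra to `ℂ` gives a normalized eigenform. -/
theorem exists_normalizedEigenform_of_ringHom (h : CuspForm.HasIntegralStructure N 2)
    (χ : CuspForm.heckeAlgebra N 2 ∅ →+* ℂ) :
    ∃ f : CuspForm (Gamma0 N) 2, f.IsNormalizedEigenform ∧
      (∀ (p : ℕ) (hp : p.Prime) (hpN : ¬ p ∣ N),
        qCoeff ⇑f p = χ (CuspForm.heckeAlgebra.T hp hpN (Set.notMem_empty p))) ∧
      (∀ (p : ℕ) (hp : p.Prime) (hpN : p ∣ N),
        qCoeff ⇑f p = χ (CuspForm.heckeAlgebra.U hp hpN (Set.notMem_empty p))) ∧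
      ∀ t : CuspForm.heckeAlgebra N 2 ∅, t.1 f = χ t • f := by
  obtain ⟨g, hg0, hg⟩ := exists_eigenform_of_ringHom (by norm_num) h χ
  have he : IsPrimeEigen g (eigenvalueOfHom χ) :=
    ⟨fun p hp hpN => by
        rw [eigenvalueOfHom_T χ hp hpN]
        exact hg (CuspForm.heckeAlgebra.T hp hpN (Set.notMem_empty p)),
      fun p hp hpN => by
        rw [eigenvalueOfHom_U χ hp hpN]
        exact hg (CuspForm.heckeAlgebra.U hp hpN (Set.notMem_empty p))⟩
  have hg1 := he.qCoeff_one_ne_zero hg0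
  obtain ⟨f, hf, hfp, hfe⟩ := he.exists_normalized hg0
  refine ⟨f, hf, fun p hp hpN => by rw [hfp p hp, eigenvalueOfHom_T χ hp hpN],
    fun p hp hpN => by rw [hfp p hp, eigenvalueOfHom_U χ hp hpN], ?_⟩
  intro t
  obtain ⟨t, ht⟩ := t
  induction ht using Algebra.adjoin_induction with
  | mem x hx =>
    rcases hx with ⟨p, hp, hpN, hpS, rfl⟩ | ⟨p, hpN, hp, hpS, rfl⟩
    · exact (hfe.1 p hp hpN).trans (by rw [eigenvalueOfHom_T χ hp hpN]; rfl)
    · exact (hfe.2 p hp hpN).trans (by rw [eigenvalueOfHom_U χ hp hpN]; rfl)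
  | algebraMap r =>
    change (algebraMap ℤ (Module.End ℂ (CuspForm (Gamma0 N) 2)) r) f =
      χ (algebraMap ℤ (CuspForm.heckeAlgebra N 2 ∅) r) • f
    rw [eq_intCast, eq_intCast, map_intCast, Module.End.intCast_apply, Int.cast_smul_eq_zsmul]
  | add x y hxm hym hx hy =>
    change (x + y) f = χ (⟨x, hxm⟩ + ⟨y, hym⟩) • f
    rw [LinearMap.add_apply, hx, hy, map_add, add_smul]
  | mul x y hxm hym hx hy =>
    change (x * y) f = χ (⟨x, hxm⟩ * ⟨y, hym⟩) • f
    rw [Module.End.mul_apply, hy, map_smul, hx, map_mul, smul_smul, mul_comm]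

/-- A normalized eigenform is an eigenvector of every weight two Hecke operator. -/
theorem isPrimeEigen_of_isNormalizedEigenform {f : CuspForm (Gamma0 N) 2}
    (hf : f.IsNormalizedEigenform) : IsPrimeEigen f (fun p => qCoeff ⇑f p) := by
  have key : ∀ (p : ℕ), p.Prime → ∀ n : ℕ,
      qCoeff ⇑f (n * p) + (if p ∣ n ∧ ¬ p ∣ N then (p : ℂ) * qCoeff ⇑f (n / p) else 0) =
        qCoeff ⇑f p * qCoeff ⇑f n := by
    intro p hp n
    rcases eq_or_ne n 0 with rfl | hn
    · simp [qCoeff_zero_index f]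
    obtain ⟨e, m, hpm, rfl⟩ := Nat.exists_eq_pow_mul_and_not_dvd hn p hp.ne_one
    have hcop : ∀ i, (p ^ i).Coprime m := fun i =>
      ((Nat.Prime.coprime_iff_not_dvd hp).mpr hpm).pow_left i
    rcases e with - | r
    · have hnd : ¬ (p ∣ p ^ 0 * m ∧ ¬ p ∣ N) := fun hh => hpm (by simpa using hh.1)
      rw [if_neg hnd, pow_zero, one_mul, add_zero, mul_comm m p,
        hf.qCoeff_mul_of_coprime p m (by simpa using hcop 1)]
    · have h1 : p ^ (r + 1) * m * p = p ^ (r + 2) * m := by ring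
      have h2 : p ^ (r + 1) * m / p = p ^ r * m := by
        rw [show p ^ (r + 1) * m = p ^ r * m * p by ring, Nat.mul_div_cancel _ hp.pos]
      rw [h1, h2, hf.qCoeff_mul_of_coprime _ _ (hcop _), hf.qCoeff_mul_of_coprime _ _ (hcop _),
        hf.qCoeff_mul_of_coprime _ _ (hcop _)]
      by_cases hpN : p ∣ N
      · rw [if_neg fun hh => hh.2 hpN, hf.qCoeff_prime_pow_of_dvd p r hp hpN]
        ring
      · rw [if_pos ⟨Dvd.dvd.mul_right (dvd_pow_self p (Nat.succ_ne_zero r)) m, hpN⟩,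
          hf.qCoeff_prime_pow_of_not_dvd p r hp hpN]
        ring
  refine ⟨fun p hp hpN => ?_, fun p hp hpN => ?_⟩
  · rw [← sub_eq_zero]
    refine eq_zero_of_qCoeff_eq_zero fun n => ?_
    rw [← qCoeffLin_apply, map_sub, map_smul, qCoeffLin_apply, qCoeffLin_apply, smul_eq_mul,
      qCoeff_heckeTLin hp hpN, sub_eq_zero, ← key p hp n]
    norm_num [hpN]
  · rw [← sub_eq_zero]
    refine eq_zero_of_qCoeff_eq_zero fun n => ?_
    rw [← qCoeffLin_apply, map_sub, map_smul, qCoeffLin_apply, qCoeffLin_apply, smul_eq_mul,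
      qCoeff_heckeULin hp.ne_zero hpN, sub_eq_zero, ← key p hp n]
    simp [hpN]

/-- A normalized eigenform gives a ring hom from the weight two Hecke algebra (any avoided set)
to `ℂ`. -/
theorem exists_ringHom_of_isNormalizedEigenform {f : CuspForm (Gamma0 N) 2}
    (hf : f.IsNormalizedEigenform) (S : Set ℕ) :
    ∃ χ : CuspForm.heckeAlgebra N 2 S →+* ℂ,
      (∀ t : CuspForm.heckeAlgebra N 2 S, t.1 f = χ t • f) ∧
      (∀ (p : ℕ) (hp : p.Prime) (hpN : ¬ p ∣ N) (hpS : p ∉ S),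
        χ (CuspForm.heckeAlgebra.T hp hpN hpS) = qCoeff ⇑f p) ∧
      ∀ (p : ℕ) (hp : p.Prime) (hpN : p ∣ N) (hpS : p ∉ S),
        χ (CuspForm.heckeAlgebra.U hp hpN hpS) = qCoeff ⇑f p := by
  have he := isPrimeEigen_of_isNormalizedEigenform hf
  have hmem : ∀ t : CuspForm.heckeAlgebra N 2 S,
      t.1 f = qCoeff ⇑(t.1 f) 1 • f := by
    rintro ⟨t, ht⟩
    suffices hex : ∃ c : ℂ, t f = c • f by
      obtain ⟨c, hc⟩ := hex
      rw [hc, qCoeff_smul', hf.qCoeff_one, mul_one]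
    induction ht using Algebra.adjoin_induction with
    | mem x hx =>
      rcases hx with ⟨p, hp, hpN, -, rfl⟩ | ⟨p, hpN, hp, -, rfl⟩
      · exact ⟨_, he.1 p hp hpN⟩
      · exact ⟨_, he.2 p hp hpN⟩
    | algebraMap r =>
      exact ⟨r, by rw [eq_intCast, Module.End.intCast_apply, Int.cast_smul_eq_zsmul]⟩
    | add x y _ _ hx hy =>
      obtain ⟨a, ha⟩ := hx
      obtain ⟨b, hb⟩ := hy
      exact ⟨a + b, by rw [LinearMap.add_apply, ha, hb, add_smul]⟩
    | mul x y _ _ hx hy =>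
      obtain ⟨a, ha⟩ := hx
      obtain ⟨b, hb⟩ := hy
      exact ⟨b * a, by rw [Module.End.mul_apply, hb, map_smul, ha, smul_smul]⟩
  let χ : CuspForm.heckeAlgebra N 2 S →+* ℂ :=
    { toFun := fun t => qCoeff ⇑(t.1 f) 1
      map_one' := hf.qCoeff_one
      map_mul' := fun t u => by
        change qCoeff ⇑(t.1 (u.1 f)) 1 = _
        conv_lhs => rw [hmem u, map_smul, qCoeff_smul']
        ring
      map_zero' := by
        change qCoeffLin N 2 1 0 = 0
        exact map_zero _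
      map_add' := fun t u => qCoeff_add' _ _ _ }
  refine ⟨χ, hmem, fun p hp hpN hpS => ?_, fun p hp hpN hpS => ?_⟩
  · change qCoeff ⇑(CuspForm.heckeTLin 2 hp hpN f) 1 = _
    rw [he.1 p hp hpN, qCoeff_smul', hf.qCoeff_one, mul_one]
  · change qCoeff ⇑(CuspForm.heckeULin 2 hpN f) 1 = _
    rw [he.2 p hp hpN, qCoeff_smul', hf.qCoeff_one, mul_one]

end FermatAgent.DSLift
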