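import Fermat.Agent.DSLift.Eigenform
import Fermat.Prelude.Def_CuspForm_IntegralLattice
import Fermat.Prelude.Def_FormalHecke_Eigensystem
import Fermat.Prelude.Def_ModularForm_EisensteinChiNegThree

set_option autoImplicit false

/-!
# The Deligne–Serre lifting argument mod 3
-/

noncomputable section

open ModularFormClass CongruenceSubgroup EisensteinWeightOne

namespace FermatAgent.DSLift

variable {N : ℕ}

theorem mem_qIntegralSet_iff {f : CuspForm (Gamma0 N) 2} :
    f ∈ CuspForm.qIntegralSet N ↔ ∀ n, ∃ m : ℤ, qCoeff ⇑f n = m := by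
  simp only [CuspForm.qIntegralSet, Set.mem_ofPred_eq, Subring.mem_bot, eq_comm]

theorem hasIntegralStructure_of_hasIntegralBasis (h : CuspForm.HasIntegralBasis N) :
    CuspForm.HasIntegralStructure N 2 := by
  refine top_le_iff.mp (h ▸ Submodule.span_mono fun f hf => ?_)
  exact mem_intLattice_iff.mpr (mem_qIntegralSet_iff.mp hf)

theorem chiNegThree_modEq (n : ℕ) : (3 : ℤ) ∣ (n : ℤ) - chiNegThree n := by
  unfold chiNegThree
  split_ifs <;> omega

theorem three_dvd_bridgeProduct_sub (a : ℕ → ℤ) (n : ℕ) :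
    (3 : ℤ) ∣ (bridgeProduct a).coeff n - a n := by
  have he : PowerSeries.map (Int.castRingHom (ZMod 3)) e1Chi3 = 1 := by
    ext m
    rw [PowerSeries.coeff_map, e1Chi3, PowerSeries.coeff_mk, PowerSeries.coeff_one]
    split_ifs with hm
    · simp
    · simp [show (6 : ZMod 3) = 0 from rfl]
  have hb : PowerSeries.map (Int.castRingHom (ZMod 3)) (bridgeProduct a) =
      PowerSeries.map (Int.castRingHom (ZMod 3)) (PowerSeries.mk a) := by
    rw [bridgeProduct, e1Chi3In, map_mul, Int.castRingHom_int, PowerSeries.map_id, id_eq,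
      he, mul_one]
  have h := congrArg (PowerSeries.coeff n) hb
  simp only [PowerSeries.coeff_map, PowerSeries.coeff_mk, eq_intCast] at h
  exact (ZMod.intCast_eq_intCast_iff_dvd_sub (a n) _ 3).mp h.symm

variable [NeZero N]

/-- `f` is, modulo `3`, an eigenvector of `t` with eigenvalue `c`. -/
def HasModThreeEigenvalue (f : CuspForm (Gamma0 N) 2)
    (t : Module.End ℂ (CuspForm (Gamma0 N) 2)) (c : ℤ) : Prop :=
  ∃ g ∈ CuspForm.intLattice N 2, t f = c • f + (3 : ℤ) • g

omit [NeZero N] in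
theorem hasModThreeEigenvalue_of_coeff {f : CuspForm (Gamma0 N) 2}
    {t : Module.End ℂ (CuspForm (Gamma0 N) 2)} {c : ℤ} {af : ℕ → ℤ}
    (haf : ∀ n, (af n : ℂ) = qCoeff ⇑f n) (b : ℕ → ℤ) (hb : ∀ n, qCoeff ⇑(t f) n = b n)
    (hdvd : ∀ n, (3 : ℤ) ∣ b n - c * af n) : HasModThreeEigenvalue f t c := by
  refine ⟨(3 : ℂ)⁻¹ • (t f - c • f), mem_intLattice_iff.mpr fun n => ?_, ?_⟩
  · obtain ⟨m, hm⟩ := hdvd n
    refine ⟨m, ?_⟩
    rw [qCoeff_smul', ← qCoeffLin_apply, map_sub, map_zsmul, qCoeffLin_apply, qCoeffLin_apply,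
      hb, ← haf, zsmul_eq_mul]
    have : ((b n - c * af n : ℤ) : ℂ) = ((3 * m : ℤ) : ℂ) := by rw [hm]
    push_cast at this
    rw [this]
    field_simp
  · rw [← Int.cast_smul_eq_zsmul ℂ (3 : ℤ), smul_smul]
    norm_num

theorem exists_modThree_character (f : CuspForm (Gamma0 N) 2)
    (h1 : ∀ c : ℤ, (∃ g ∈ CuspForm.intLattice N 2, c • f = (3 : ℤ) • g) → (3 : ℤ) ∣ c)
    (lam : ℕ → ℤ)
    (hT : ∀ (p : ℕ) (hp : p.Prime) (hpN : ¬ p ∣ N),
      HasModThreeEigenvalue f (CuspForm.heckeTLin 2 hp hpN) (lam p))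
    (hU : ∀ (p : ℕ), p.Prime → ∀ hpN : p ∣ N,
      HasModThreeEigenvalue f (CuspForm.heckeULin 2 hpN) (lam p)) :
    ∃ θ : CuspForm.heckeAlgebra N 2 ∅ →+* ZMod 3,
      ∀ (p : ℕ) (hp : p.Prime) (hpN : ¬ p ∣ N),
        θ (CuspForm.heckeAlgebra.T hp hpN (Set.notMem_empty p)) = (lam p : ZMod 3) := by
  have huniq : ∀ {t c c'}, HasModThreeEigenvalue f t c → HasModThreeEigenvalue f t c' →
      (c : ZMod 3) = (c' : ZMod 3) := by
    rintro t c c' ⟨g, hg, ht⟩ ⟨g', hg', ht'⟩
    refine (ZMod.intCast_eq_intCast_iff_dvd_sub c c' 3).mpr (h1 (c' - c) ⟨g - g', sub_mem hg hg', ?_⟩)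
    rw [sub_smul, smul_sub, sub_eq_sub_iff_add_eq_add, add_comm ((3 : ℤ) • g), ← ht', ← ht]
  have hex : ∀ t : CuspForm.heckeAlgebra N 2 ∅, ∃ c, HasModThreeEigenvalue f t.1 c := by
    rintro ⟨t, ht⟩
    induction ht using Algebra.adjoin_induction with
    | mem x hx =>
      rcases hx with ⟨p, hp, hpN, -, rfl⟩ | ⟨p, hpN, hp, -, rfl⟩
      · exact ⟨_, hT p hp hpN⟩
      · exact ⟨_, hU p hp hpN⟩
    | algebraMap r =>
      refine ⟨r, 0, zero_mem _, ?_⟩
      change (algebraMap ℤ (Module.End ℂ (CuspForm (Gamma0 N) 2)) r) f = _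
      rw [eq_intCast, Module.End.intCast_apply, smul_zero, add_zero]
    | add x y _ _ hx hy =>
      obtain ⟨a, g, hg, ha⟩ := hx
      obtain ⟨b, g', hg', hb⟩ := hy
      refine ⟨a + b, g + g', add_mem hg hg', ?_⟩
      simp only at ha hb ⊢
      rw [LinearMap.add_apply, ha, hb, add_smul, smul_add]
      abel
    | mul x y hxm _ hx hy =>
      obtain ⟨a, g, hg, ha⟩ := hx
      obtain ⟨b, g', hg', hb⟩ := hy
      refine ⟨b * a, b • g + x g',
        add_mem (Submodule.smul_mem _ _ hg)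
          (CuspForm.mem_intLattice_of_mem_heckeAlgebra (by norm_num) hxm hg'), ?_⟩
      simp only at ha hb ⊢
      rw [Module.End.mul_apply, hb, map_add, map_zsmul, map_zsmul, ha, smul_add, smul_add,
        smul_smul, smul_comm b (3 : ℤ) g]
      abel
  choose c hc using hex
  let θ : CuspForm.heckeAlgebra N 2 ∅ →+* ZMod 3 :=
    { toFun := fun t => (c t : ZMod 3)
      map_one' := by
        refine (huniq (hc 1) ⟨0, zero_mem _, ?_⟩).trans Int.cast_one
        rw [smul_zero, add_zero, one_smul]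
        rfl
      map_zero' := by
        refine (huniq (hc 0) ⟨0, zero_mem _, ?_⟩).trans Int.cast_zero
        rw [smul_zero, add_zero, zero_smul]
        rfl
      map_add' := fun t u => by
        obtain ⟨g, hg, ha⟩ := hc t
        obtain ⟨g', hg', hb⟩ := hc u
        refine (huniq (hc (t + u)) ⟨g + g', add_mem hg hg', ?_⟩).trans (Int.cast_add (c t) (c u))
        change t.1 f + u.1 f = _
        rw [ha, hb, add_smul, smul_add]
        abel
      map_mul' := fun t u => by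
        obtain ⟨g, hg, ha⟩ := hc t
        obtain ⟨g', hg', hb⟩ := hc u
        refine (huniq (hc (t * u)) ⟨c u • g + t.1 g', add_mem (Submodule.smul_mem _ _ hg)
          (CuspForm.mem_intLattice_of_mem_heckeAlgebra (by norm_num) t.2 hg'), ?_⟩).trans
          (Int.cast_mul (c t) (c u))
        change t.1 (u.1 f) = _
        rw [hb, map_add, map_zsmul, map_zsmul, ha, smul_add, smul_add, smul_smul,
          smul_comm (c u) (3 : ℤ) g, mul_comm (c u)]
        abel }
  exact ⟨θ, fun p hp hpN => huniq (hc _) (hT p hp hpN)⟩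

/-- A characteristic zero lift of a mod `3` character of a finite torsion-free algebra, together
with a maximal ideal of the algebraic integers inducing it. -/
theorem exists_lift_of_modThree_character {T : Type*} [CommRing T] [IsAddTorsionFree T]
    [Module.Finite ℤ T] [Nontrivial T] (θ : T →+* ZMod 3) :
    ∃ (χ : T →+* integralClosure ℤ ℂ) (𝔪 : Ideal (integralClosure ℤ ℂ)), 𝔪.IsMaximal ∧
      ((3 : ℕ) : integralClosure ℤ ℂ) ∈ 𝔪 ∧ ∀ t, θ t = 0 → χ t ∈ 𝔪 := by
  have : (RingHom.ker θ).IsPrime := RingHom.ker_isPrime θ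
  obtain ⟨P, hPmin, hPle⟩ := Ideal.exists_minimalPrimes_le (bot_le : (⊥ : Ideal T) ≤ RingHom.ker θ)
  have : P.IsPrime := hPmin.isPrime
  have hinj : Function.Injective (algebraMap ℤ (T ⧸ P)) := by
    refine (injective_iff_map_eq_zero _).mpr fun n hn => by_contra fun hn0 => ?_
    rw [IsScalarTower.algebraMap_apply ℤ T (T ⧸ P), Ideal.Quotient.algebraMap_eq,
      Ideal.Quotient.eq_zero_iff_mem] at hn
    refine Set.disjoint_left.mp (Ideal.disjoint_nonZeroDivisors_of_mem_minimalPrimes hPmin) hn ?_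
    refine mem_nonZeroDivisors_iff_right.mpr fun x hx => ?_
    rw [eq_intCast, mul_comm, ← zsmul_eq_mul] at hx
    exact (smul_eq_zero.mp hx).resolve_left hn0
  have : FaithfulSMul ℤ (T ⧸ P) := (faithfulSMul_iff_algebraMap_injective ℤ (T ⧸ P)).mpr hinj
  have : Module.IsTorsionFree ℤ (T ⧸ P) :=
    Module.IsTorsionFree.trans_faithfulSMul ℤ (T ⧸ P) (T ⧸ P)
  have : Algebra.IsAlgebraic ℤ (T ⧸ P) := inferInstance
  let φ : T ⧸ P →ₐ[ℤ] ℂ := IsAlgClosed.lift
  let ψ : T →ₐ[ℤ] ℂ := φ.comp (Ideal.Quotient.mkₐ ℤ P)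
  let χ : T →ₐ[ℤ] integralClosure ℤ ℂ :=
    ψ.codRestrict _ fun t => (Algebra.IsIntegral.isIntegral t).map ψ
  have hφ : Function.Injective φ := by
    refine (injective_iff_map_eq_zero φ).mpr fun y hy => ?_
    have hker : RingHom.ker φ.toRingHom = ⊥ := by
      refine Ideal.eq_bot_of_comap_eq_bot (R := ℤ) ?_
      rw [eq_bot_iff]
      intro n hn
      simp only [Ideal.mem_comap, RingHom.mem_ker, AlgHom.toRingHom_eq_coe, 
        eq_intCast, map_intCast, Int.cast_eq_zero] at hn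
      exact hn
    have : y ∈ RingHom.ker φ.toRingHom := hy
    rwa [hker, Ideal.mem_bot] at this
  let : Algebra T (integralClosure ℤ ℂ) := χ.toRingHom.toAlgebra
  have : IsScalarTower ℤ T (integralClosure ℤ ℂ) := IsScalarTower.of_algHom χ
  have : Algebra.IsIntegral T (integralClosure ℤ ℂ) :=
    Algebra.IsIntegral.tower_top (R := ℤ)
  have hmax : (RingHom.ker θ).IsMaximal :=
    RingHom.ker_isMaximal_of_surjective θ (ZMod.ringHom_surjective θ)
  obtain ⟨Q, hQ, hQc⟩ := Ideal.exists_ideal_over_maximal_of_isIntegral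
    (S := integralClosure ℤ ℂ) (RingHom.ker θ) (by
      intro t ht
      have : φ (Ideal.Quotient.mk P t) = 0 := congrArg Subtype.val (RingHom.mem_ker.mp ht)
      exact hPle (Ideal.Quotient.eq_zero_iff_mem.mp (hφ (by rw [this, map_zero]))))
  have hmem : ∀ t, θ t = 0 → χ t ∈ Q := fun t ht => by
    have : t ∈ Q.comap (algebraMap T (integralClosure ℤ ℂ)) := by rw [hQc]; exact ht
    exact this
  refine ⟨χ.toRingHom, Q, hQ, ?_, hmem⟩
  rw [← map_natCast χ]
  exact hmem _ (by rw [map_natCast]; rfl)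

theorem exists_congruent_eigenform (h : CuspForm.HasIntegralBasis N) {a : ℕ → ℤ}
    (heig : FormalHecke.IsEigensystem
      (fun ℓ => if ℓ ∣ N then 0 else ((chiNegThree ℓ : ℤ) : ℤ)) a)
    (hreal : CuspForm.IsLatticeRealized N a) :
    ∃ (f : CuspForm (Gamma0 N) 2) (_ : f.IsNormalizedEigenform)
      (𝔪' : Ideal (integralClosure ℤ ℂ)), 𝔪'.IsMaximal ∧
      ((3 : ℕ) : integralClosure ℤ ℂ) ∈ 𝔪' ∧
      ∀ (ℓ : ℕ) (_ : ℓ.Prime) (_ : ¬ ℓ ∣ N),
        ∃ c : integralClosure ℤ ℂ, (c : ℂ) = qCoeff ⇑f ℓ ∧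
          c - (a ℓ : integralClosure ℤ ℂ) ∈ 𝔪' := by
  have hint := hasIntegralStructure_of_hasIntegralBasis h
  obtain ⟨f, -, af, haf, hcong⟩ := hreal
  have hafa : ∀ n, (3 : ℤ) ∣ af n - a n := fun n => by
    simpa using dvd_add (hcong n) (three_dvd_bridgeProduct_sub a n)
  have h1 : ∀ c : ℤ, (∃ g ∈ CuspForm.intLattice N 2, c • f = (3 : ℤ) • g) → (3 : ℤ) ∣ c := by
    rintro c ⟨g, hg, hcg⟩
    obtain ⟨m, hm⟩ := mem_intLattice_iff.mp hg 1
    have := congrArg (qCoeffLin N 2 1) hcg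
    rw [map_zsmul, map_zsmul, qCoeffLin_apply, qCoeffLin_apply, ← haf, hm, zsmul_eq_mul,
      zsmul_eq_mul] at this
    have h' : c * af 1 = 3 * m := by exact_mod_cast this
    have h1' := hafa 1
    rw [heig.1] at h1'
    have : (3 : ℤ) ∣ c * af 1 - c * (af 1 - 1) :=
      dvd_sub ⟨m, h'⟩ (Dvd.dvd.mul_left h1' c)
    simpa [mul_sub] using this
  have hT : ∀ (p : ℕ) (hp : p.Prime) (hpN : ¬ p ∣ N),
      HasModThreeEigenvalue f (CuspForm.heckeTLin 2 hp hpN) (a p) := fun p hp hpN => by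
    refine hasModThreeEigenvalue_of_coeff haf
      (fun n => af (n * p) + if p ∣ n then (p : ℤ) * af (n / p) else 0) (fun n => ?_) fun n => ?_
    · rw [qCoeff_heckeTLin hp hpN, ← haf (n * p)]
      split_ifs
      · rw [← haf (n / p)]
        norm_num
      · norm_num
    · have := heig.2 p hp n
      simp only [hpN, if_false, mul_comm p n] at this
      have e1 := hafa (n * p)
      have e2 := Dvd.dvd.mul_left (hafa n) (a p)
      by_cases hd : p ∣ n
      · simp only [hd, if_true] at this ⊢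
        have e3 := Dvd.dvd.mul_left (hafa (n / p)) (p : ℤ)
        have e4 := Dvd.dvd.mul_right (chiNegThree_modEq p) (a (n / p))
        have e := dvd_add (dvd_sub e1 e2) (dvd_add e3 e4)
        obtain ⟨k, hk⟩ := e
        exact ⟨k, by linear_combination hk + this⟩
      · simp only [hd, if_false, mul_zero, add_zero] at this ⊢
        obtain ⟨k, hk⟩ := dvd_sub e1 e2
        exact ⟨k, by linear_combination hk + this⟩
  have hU : ∀ (p : ℕ), p.Prime → ∀ hpN : p ∣ N,
      HasModThreeEigenvalue f (CuspForm.heckeULin 2 hpN) (a p) := fun p hp hpN => by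
    refine hasModThreeEigenvalue_of_coeff haf (fun n => af (n * p)) (fun n => ?_) fun n => ?_
    · rw [qCoeff_heckeULin hp.ne_zero hpN, haf]
    · have := heig.2 p hp n
      simp only [hpN, if_true, zero_mul, add_zero, mul_comm p n] at this
      obtain ⟨k, hk⟩ := dvd_sub (hafa (n * p)) (Dvd.dvd.mul_left (hafa n) (a p))
      exact ⟨k, by linear_combination hk + this⟩
  obtain ⟨θ, hθ⟩ := exists_modThree_character f h1 a hT hU
  have := heckeAlgebra_finite (by norm_num) hint (∅ : Set ℕ)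
  have : Nontrivial (CuspForm.heckeAlgebra N 2 ∅) := RingHom.domain_nontrivial θ
  obtain ⟨χ, 𝔪, hmax, h3, hker⟩ := exists_lift_of_modThree_character θ
  obtain ⟨g, hg, hgT, -, -⟩ :=
    exists_normalizedEigenform_of_ringHom hint ((integralClosure ℤ ℂ).val.toRingHom.comp χ)
  refine ⟨g, hg, 𝔪, hmax, h3, fun ℓ hℓ hℓN =>
    ⟨χ (CuspForm.heckeAlgebra.T hℓ hℓN (Set.notMem_empty ℓ)), (hgT ℓ hℓ hℓN).symm, ?_⟩⟩
  have := hker (CuspForm.heckeAlgebra.T hℓ hℓN (Set.notMem_empty ℓ) - (a ℓ : CuspForm.heckeAlgebra N 2 ∅))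
    (by rw [map_sub, hθ, map_intCast, sub_self])
  rwa [map_sub, map_intCast] at this

end FermatAgent.DSLift
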